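import Fermat.Agent.S24.Mod.LocalInt
import Fermat.Agent.S24.Mod.LocalCusp
import Fermat.Agent.S24.FF.RiemannHurwitz
import Fermat.Agent.S24.Comb.Final

/-! # S24 : final assembly -/

set_option autoImplicit false

open UpperHalfPlane ModularForm Function ModularCurve IntermediateField AlgebraicCurve
open scoped Manifold MatrixGroups

noncomputable section

namespace Fermat.Agent.S24

theorem main (N : ℕ) [NeZero N]
    [AlgebraicCurve.HasCanonicalDivisor (K := AlgebraicClosure ℚ)
      (F := ↥(ModularCurve.modularFunctionFieldBar N))] :
    (AlgebraicCurve.genus (AlgebraicClosure ℚ) ↥(ModularCurve.modularFunctionFieldBar N) : ℚ)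
      = ModularCurve.genusFormula N := by
  classical
  have hcard : Nat.card (Cos N) = dedekindPsi N := Comb.card_X N
  have h := FF.genus_eq_of_counts (K := Kb) (F := FN N) (transcendental_JJ N)
    ({0, 1728} : Finset Kb)
    (by
      intro c hc
      simp only [Finset.mem_insert, Finset.mem_singleton, not_or] at hc
      rw [card_places_generic N c hc.1 hc.2, finrank_FN])
  have h01728 : (0 : Kb) ≠ 1728 := by norm_num
  rw [Finset.sum_pair h01728, card_places_zero, card_places_1728, card_places_infty,
    finrank_FN, hcard] at h
  rw [h]
  exact Comb.genus_arith N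

end Fermat.Agent.S24
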