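import Fermat.Statements.S24

/-!
# S24: shared definitions (modular side)

`Kb = ℚ̄`, a fixed embedding `iota : Kb →+* ℂ`, the analytic `j`-function, the ring `MerMod N`
of holomorphic functions on `ℍ` which are "meromorphic at all cusps w.r.t. `q^(1/N)`",
with its `SL(2,ℤ)`-action, and its fraction field `LL N`.
-/

set_option autoImplicit false

open UpperHalfPlane ModularForm Function
open scoped Manifold MatrixGroups

noncomputable section

namespace Fermat.Agent.S24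

/-- `ℚ̄`. -/
abbrev Kb : Type := AlgebraicClosure ℚ

/-- a fixed embedding `ℚ̄ → ℂ`. -/
def iota : Kb →+* ℂ :=
  letI : Algebra ℚ Kb := AlgebraicClosure.instAlgebra ℚ
  (IsAlgClosed.lift : Kb →ₐ[ℚ] ℂ).toRingHom

instance instAlgebraKbComplex : Algebra Kb ℂ := iota.toAlgebra

theorem algebraMap_Kb_complex (a : Kb) : algebraMap Kb ℂ a = iota a := rfl

local notation "Δ" => ModularForm.discriminant

/-- the analytic `j`-function `E₄³/Δ`. -/
def jFun (τ : ℍ) : ℂ := (E₄ τ) ^ 3 / Δ τ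

/-- `τ ↦ d τ` on the upper half plane. -/
def scaleH (d : ℕ) [NeZero d] (τ : ℍ) : ℍ :=
  ⟨(d : ℂ) * τ, by
    have hd : (0 : ℝ) < d := by exact_mod_cast Nat.pos_of_ne_zero (NeZero.ne d)
    simpa using mul_pos hd τ.im_pos⟩

@[simp] theorem coe_scaleH (d : ℕ) [NeZero d] (τ : ℍ) : (scaleH d τ : ℂ) = (d : ℂ) * τ := rfl

/-- `τ ↦ j(dτ)`. -/
def jD (d : ℕ) [NeZero d] : ℍ → ℂ := fun τ => jFun (scaleH d τ)

/-- "nice" functions: `h`-periodic, holomorphic, bounded at `i∞`.  Mathlib's `qExpansion h` is an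
injective ring homomorphism on these. -/
structure IsNice (h : ℝ) (f : ℍ → ℂ) : Prop where
  per : Periodic (f ∘ ofComplex) h
  holo : MDiff f
  bdd : IsBoundedAtImInfty f

/-- the carrier of `MerMod N`. -/
def IsMerMod (N : ℕ) (f : ℍ → ℂ) : Prop :=
  ∀ γ : SL(2, ℤ), ∃ m : ℕ, IsNice N (fun τ => Δ τ ^ m * f (γ • τ))

theorem IsNice.const (h : ℝ) (c : ℂ) : IsNice h (fun _ => c) where
  per := fun _ => rfl
  holo := mdifferentiable_const
  bdd := Filter.const_boundedAtFilter _ c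

theorem IsNice.add {h : ℝ} {f g : ℍ → ℂ} (hf : IsNice h f) (hg : IsNice h g) : IsNice h (f + g) where
  per := hf.per.add hg.per
  holo := hf.holo.add hg.holo
  bdd := hf.bdd.add hg.bdd

theorem IsNice.mul {h : ℝ} {f g : ℍ → ℂ} (hf : IsNice h f) (hg : IsNice h g) : IsNice h (f * g) where
  per := hf.per.mul hg.per
  holo := hf.holo.mul hg.holo
  bdd := hf.bdd.mul hg.bdd

theorem IsNice.pow {h : ℝ} {f : ℍ → ℂ} (hf : IsNice h f) (n : ℕ) : IsNice h (f ^ n) := by
  induction n with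
  | zero => exact IsNice.const h 1
  | succ n ih => rw [pow_succ]; exact ih.mul hf

theorem isNice_discriminant_one : IsNice 1 Δ where
  per := SlashInvariantFormClass.periodic_comp_ofComplex (h := 1) CuspForm.discriminant
      one_mem_strictPeriods_SL
  holo := CuspForm.discriminant.holo'
  bdd := (discriminant_isZeroAtImInfty).isBoundedAtImInfty

theorem IsNice.of_nat_mul {h : ℝ} {f : ℍ → ℂ} (hf : IsNice h f) (n : ℕ) : IsNice (n * h) f where
  per := by simpa using hf.per.nat_mul n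
  holo := hf.holo
  bdd := hf.bdd

theorem isNice_discriminant (N : ℕ) : IsNice N Δ := by
  simpa using isNice_discriminant_one.of_nat_mul N

/-- The ring of holomorphic functions on `ℍ`, all of whose `SL(2,ℤ)`-translates are `N`-periodic
and meromorphic at `i∞`. -/
def MerMod (N : ℕ) : Subalgebra ℂ (ℍ → ℂ) where
  carrier := {f | IsMerMod N f}
  mul_mem' := by
    intro f g hf hg γ
    obtain ⟨m₁, h₁⟩ := hf γ
    obtain ⟨m₂, h₂⟩ := hg γ
    refine ⟨m₁ + m₂, ?_⟩
    convert h₁.mul h₂ using 1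
    funext τ
    simp only [Pi.mul_apply, pow_add]
    ring
  add_mem' := by
    intro f g hf hg γ
    obtain ⟨m₁, h₁⟩ := hf γ
    obtain ⟨m₂, h₂⟩ := hg γ
    refine ⟨m₁ + m₂, ?_⟩
    convert (((isNice_discriminant N).pow m₂).mul h₁).add (((isNice_discriminant N).pow m₁).mul h₂)
      using 1
    funext τ
    simp only [Pi.mul_apply, Pi.add_apply, Pi.pow_apply, pow_add]
    ring
  algebraMap_mem' := by
    intro c γ
    refine ⟨0, ?_⟩
    convert IsNice.const N c using 1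
    funext τ
    simp

theorem mem_MerMod {N : ℕ} {f : ℍ → ℂ} : f ∈ MerMod N ↔ IsMerMod N f := Iff.rfl

/-- `SL(2,ℤ)` acts on functions on `ℍ` by `(γ • f) τ = f (γ⁻¹ • τ)`. -/
def actFun (γ : SL(2, ℤ)) (f : ℍ → ℂ) : ℍ → ℂ := fun τ => f (γ⁻¹ • τ)

theorem actFun_mem {N : ℕ} (γ : SL(2, ℤ)) {f : ℍ → ℂ} (hf : f ∈ MerMod N) :
    actFun γ f ∈ MerMod N := by
  intro δ
  obtain ⟨m, hm⟩ := hf (γ⁻¹ * δ)
  refine ⟨m, ?_⟩
  convert hm using 1
  funext τ
  simp [actFun, mul_smul]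

instance instMulSemiringActionMerMod (N : ℕ) : MulSemiringAction SL(2, ℤ) (MerMod N) where
  smul γ f := ⟨actFun γ f.1, actFun_mem γ f.2⟩
  one_smul f := by
    apply Subtype.ext; funext τ
    show f.1 ((1 : SL(2, ℤ))⁻¹ • τ) = f.1 τ
    simp
  mul_smul γ δ f := by
    apply Subtype.ext; funext τ
    show f.1 ((γ * δ)⁻¹ • τ) = f.1 (δ⁻¹ • γ⁻¹ • τ)
    simp [mul_smul]
  smul_zero γ := rfl
  smul_add γ f g := rfl
  smul_one γ := rfl
  smul_mul γ f g := rfl

@[simp] theorem smul_MerMod_apply {N : ℕ} (γ : SL(2, ℤ)) (f : MerMod N) (τ : ℍ) :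
    (γ • f).1 τ = f.1 (γ⁻¹ • τ) := rfl

/-- The ring of holomorphic, `N`-periodic functions on `ℍ` which are meromorphic at `i∞`
(it contains `Δ`, `Δ⁻¹`, all nice functions, and `MerMod N`). -/
def MerInf (N : ℕ) : Subalgebra ℂ (ℍ → ℂ) where
  carrier := {f | ∃ m : ℕ, IsNice N (fun τ => Δ τ ^ m * f τ)}
  mul_mem' := by
    rintro f g ⟨m₁, h₁⟩ ⟨m₂, h₂⟩
    refine ⟨m₁ + m₂, ?_⟩
    convert h₁.mul h₂ using 1
    funext τ
    simp only [Pi.mul_apply, pow_add]
    ring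
  add_mem' := by
    rintro f g ⟨m₁, h₁⟩ ⟨m₂, h₂⟩
    refine ⟨m₁ + m₂, ?_⟩
    convert (((isNice_discriminant N).pow m₂).mul h₁).add (((isNice_discriminant N).pow m₁).mul h₂)
      using 1
    funext τ
    simp only [Pi.mul_apply, Pi.add_apply, Pi.pow_apply, pow_add]
    ring
  algebraMap_mem' := by
    intro c
    refine ⟨0, ?_⟩
    convert IsNice.const N c using 1
    funext τ
    simp

theorem mem_MerInf {N : ℕ} {f : ℍ → ℂ} :
    f ∈ MerInf N ↔ ∃ m : ℕ, IsNice N (fun τ => Δ τ ^ m * f τ) := Iff.rfl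

theorem MerMod_le_MerInf (N : ℕ) : MerMod N ≤ MerInf N := by
  intro f hf
  obtain ⟨m, hm⟩ := hf 1
  exact ⟨m, by simpa using hm⟩

theorem IsNice.mem_MerInf {N : ℕ} {f : ℍ → ℂ} (hf : IsNice N f) : f ∈ MerInf N :=
  ⟨0, by simpa using hf⟩

end Fermat.Agent.S24
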